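/-
MAZ moduli side, brick F-D3 second half = (D3') of report 1112 (helper24), part 1: THE SPECIALISATION
PRINCIPLE for a place reduction `r` (`IsPlaceReductionAlong A π N r`), no special-fibre theory.

* fibre sums: `mapDomain_apply_eq_sum`, `mapDomain_nonneg_of_fibre`, `mapDomain_pos_of_fibre`,
  `eq_zero_of_mapDomain_eq_zero`;
* `exists_div_red`  : for an `A`-integral `Y` with nonzero reduction there is `D = div Y` upstairs with
                       `(r_* D)(Q) = ord_Q Y~` for every place `Q` of the special fibre;
* `ord_red_pos`     : if `Y` has no pole in the fibre `r⁻¹ Q` and a zero at some `x ∈ r⁻¹ Q`,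
                       then `Y~` vanishes at `Q`   ("specialisation commutes with evaluation").
-/
import Mathlib
import Fermat.Prelude.Def_ModularCurve_ReductionModL
import Fermat.Agent.RED.TOP.S18Top20

set_option autoImplicit false
set_option linter.unusedSectionVars false

noncomputable section

open HahnSeries IntermediateField AlgebraicCurve ModularCurve

namespace Fermat.Agent.MAZ.RedInf24

/-! ### fibre sums -/

section FibreSum

variable {α β : Type*}

theorem mapDomain_apply_eq_sum [DecidableEq β] (r : α → β) (D : α →₀ ℤ) (Q : β) :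
    Finsupp.mapDomain r D Q = ∑ P ∈ D.support, if r P = Q then D P else 0 := by
  rw [Finsupp.mapDomain, Finsupp.sum_apply, Finsupp.sum]
  refine Finset.sum_congr rfl fun P _ => ?_
  rw [Finsupp.single_apply]

theorem mapDomain_nonneg_of_fibre (r : α → β) (D : α →₀ ℤ) (Q : β)
    (h : ∀ P, r P = Q → 0 ≤ D P) : 0 ≤ Finsupp.mapDomain r D Q := by
  classical
  rw [mapDomain_apply_eq_sum]
  refine Finset.sum_nonneg fun P _ => ?_
  split_ifs with hP
  · exact h P hP
  · exact le_rfl

theorem mapDomain_pos_of_fibre (r : α → β) (D : α →₀ ℤ) (Q : β)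
    (h : ∀ P, r P = Q → 0 ≤ D P) {x : α} (hx : r x = Q) (hDx : 0 < D x) :
    0 < Finsupp.mapDomain r D Q := by
  classical
  rw [mapDomain_apply_eq_sum]
  have hxs : x ∈ D.support := Finsupp.mem_support_iff.mpr hDx.ne'
  refine Finset.sum_pos' (fun P _ => ?_) ⟨x, hxs, ?_⟩
  · split_ifs with hP
    · exact h P hP
    · exact le_rfl
  · rw [if_pos hx]
    exact hDx

/-- A divisor which is `≥ 0` on the fibre of `Q` and has fibre sum `0` vanishes on the fibre. -/
theorem eq_zero_of_mapDomain_eq_zero (r : α → β) (D : α →₀ ℤ) (Q : β)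
    (h : ∀ P, r P = Q → 0 ≤ D P) (h0 : Finsupp.mapDomain r D Q = 0) {x : α} (hx : r x = Q) :
    D x = 0 := by
  by_contra hne
  have hpos : 0 < D x := lt_of_le_of_ne (h x hx) (Ne.symm hne)
  have := mapDomain_pos_of_fibre r D Q h hx hpos
  omega

end FibreSum

/-! ### the specialisation principle -/

section Principle

variable {L : Type*} [Field L] [Algebra ℚ L] {A : ValuationSubring L}
variable {k : Type*} [Field k] {π : A →+* k} {N : ℕ}
variable {r : Place L (laurentBaseChange L (modularFunctionFieldFull N)) →
  Place k (modularFunctionFieldFullC k N)}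

open Fermat.Agent.RED.TOP.S18Top20

/-- The divisor of an integral function upstairs, with its push-forward computed by the reduction. -/
theorem exists_div_red
    (hdiv : HasPrincipalDivisors L ↥(laurentBaseChange L (modularFunctionFieldFull N)))
    (hr : IsPlaceReductionAlong A π N r) (Y : LaurentSeries A)
    (hY : coeffMap A.subtype Y ∈ laurentBaseChange L (modularFunctionFieldFull N))
    (hYk : coeffMap π Y ∈ modularFunctionFieldFullC k N) (hY0 : coeffMap π Y ≠ 0) :
    ∃ D : Divisor L (laurentBaseChange L (modularFunctionFieldFull N)),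
      (∀ P, D P = P.ord (⟨_, hY⟩ : laurentBaseChange L (modularFunctionFieldFull N))) ∧
      ∀ Q, Finsupp.mapDomain r D Q = Q.ord (⟨_, hYk⟩ : modularFunctionFieldFullC k N) := by
  obtain ⟨D, hD, -⟩ := hdiv.exists_divisor _ (bar_ne_zero hY hY0)
  exact ⟨D, hD, fun Q => hr.2 Y hY hYk hY0 D hD Q⟩

/-- **Specialisation principle.** If the integral function `Y` has no pole in the fibre of `Q` and a zero
at some point `x` of the fibre, then its reduction vanishes at `Q`. -/
theorem ord_red_pos
    (hdiv : HasPrincipalDivisors L ↥(laurentBaseChange L (modularFunctionFieldFull N)))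
    (hr : IsPlaceReductionAlong A π N r) (Y : LaurentSeries A)
    (hY : coeffMap A.subtype Y ∈ laurentBaseChange L (modularFunctionFieldFull N))
    (hYk : coeffMap π Y ∈ modularFunctionFieldFullC k N) (hY0 : coeffMap π Y ≠ 0)
    (Q : Place k (modularFunctionFieldFullC k N))
    (hnp : ∀ P, r P = Q →
      0 ≤ P.ord (⟨_, hY⟩ : laurentBaseChange L (modularFunctionFieldFull N)))
    {x : Place L (laurentBaseChange L (modularFunctionFieldFull N))} (hx : r x = Q)
    (hx0 : 0 < x.ord (⟨_, hY⟩ : laurentBaseChange L (modularFunctionFieldFull N))) :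
    0 < Q.ord (⟨_, hYk⟩ : modularFunctionFieldFullC k N) := by
  obtain ⟨D, hD, hrD⟩ := exists_div_red hdiv hr Y hY hYk hY0
  rw [← hrD Q]
  refine mapDomain_pos_of_fibre r D Q (fun P hP => ?_) hx ?_
  · rw [hD P]
    exact hnp P hP
  · rw [hD x]
    exact hx0

/-- If the integral function `Y` has no pole in the fibre of `Q`, its reduction has no pole at `Q`. -/
theorem ord_red_nonneg
    (hdiv : HasPrincipalDivisors L ↥(laurentBaseChange L (modularFunctionFieldFull N)))
    (hr : IsPlaceReductionAlong A π N r) (Y : LaurentSeries A)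
    (hY : coeffMap A.subtype Y ∈ laurentBaseChange L (modularFunctionFieldFull N))
    (hYk : coeffMap π Y ∈ modularFunctionFieldFullC k N) (hY0 : coeffMap π Y ≠ 0)
    (Q : Place k (modularFunctionFieldFullC k N))
    (hnp : ∀ P, r P = Q →
      0 ≤ P.ord (⟨_, hY⟩ : laurentBaseChange L (modularFunctionFieldFull N))) :
    0 ≤ Q.ord (⟨_, hYk⟩ : modularFunctionFieldFullC k N) := by
  obtain ⟨D, hD, hrD⟩ := exists_div_red hdiv hr Y hY hYk hY0
  rw [← hrD Q]
  refine mapDomain_nonneg_of_fibre r D Q (fun P hP => ?_)
  rw [hD P]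
  exact hnp P hP

end Principle

end Fermat.Agent.MAZ.RedInf24
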