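/-
MAZ moduli side, brick F-D3 second half = (D3') of report 1112 (helper24), part 2: WHICH CUSP DOES A
POINT WITH NON-INTEGRAL `j` REDUCE TO?

`p` prime, `A ≤ ℚbar` a valuation subring, `k` its residue field, `F~ = modularFunctionFieldFullC k p`,
`r` a place reduction (`hr : IsPlaceReductionModL A p r`), `Q∞ := r (cuspInf p)`, `Q0 := r (cuspZero p)`.
No special-fibre theory: only `hr.2` applied to explicit `A`-integral functions.

* `red_fibre`      : a place `x` with `j(x) = a ∉ A` reduces to `Q∞` or `Q0`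
                     (apply `hr.2` to `1 - a⁻¹ j`, whose reduction is `1`);
* `no_zero_of_j_in_cusp_fibres` : if `ord_{Q∞} j~ = -1`, `ord_{Q0} j~ = -p`, `Q∞ ≠ Q0`, no zero of `j`
                     reduces to `Q∞` or `Q0`;
* `red_eq_inf_iff` : for `f ∈ FF p` with an `A`-integral expansion `F`, poles only at zeros of `j`,
                     `f~ ≡ 1` at `Q∞` and `f~` vanishing at `Q0`, and `c = f(x)`:
                     `r x = Q∞ ↔ v_A(c) = 1`; moreover then `c ≡ 1`.
-/
import Mathlib
import Fermat.Agent.MAZ.RedInf24.Abstract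
import Fermat.Agent.MAZ.Ogg24.Cusps
import Fermat.Agent.RED.TOP.FbarFacts20

set_option autoImplicit false
set_option synthInstance.maxHeartbeats 400000
set_option linter.unusedSectionVars false

noncomputable section

open HahnSeries IntermediateField AlgebraicCurve ModularCurve

namespace Fermat.Agent.MAZ.RedInf24

open Fermat.Agent.X0 Fermat.Agent.X0.FF
open Fermat.Agent.RED.TOP Fermat.Agent.RED.TOP.ConstViaR20 Fermat.Agent.RED.TOP.S18Top20
open Fermat.Agent.MAZ.HeckeCusp89 Fermat.Agent.MAZ.Ogg24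
open Fermat.Agent.RED.CUSP.CuspExact16 Fermat.Agent.ES.P36.CuspWidth3

local notation "Qbar" => AlgebraicClosure ℚ

/-! ### the orders of `j` at the two cusps -/

section CuspOrders

variable (p : ℕ) [NeZero p]

theorem ord_cuspInf_jF : (cuspInf p).ord (jF p) = -1 := by
  have h := neg_ord_jF_eq p 1
  rw [placeOf_one, (cuspW_eq_one_iff p 1).mpr (by simp)] at h
  push_cast at h
  linarith

theorem ord_cuspZero_jF : (cuspZero p).ord (jF p) = -(p : ℤ) := by
  have h := neg_ord_jF_eq p ModularGroup.S⁻¹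
  have hW : cuspW p ModularGroup.S⁻¹ = p :=
    cuspW_eq_self_of_isCoprime p _ (by rw [S_inv_entry]; exact isCoprime_one_right.neg_right)
  rw [placeOf_S_inv, hW] at h
  linarith

theorem ord_jF_nonneg_of_ne (hp : p.Prime) (P : Place Kbar (FF p)) (h1 : P ≠ cuspInf p)
    (h2 : P ≠ cuspZero p) : 0 ≤ P.ord (jF p) := by
  by_contra h
  rcases eq_cuspInf_or_eq_cuspZero p hp P (not_le.mp h) with h' | h'
  · exact h1 h'
  · exact h2 h'

end CuspOrders

/-! ### residues -/

section Residue

variable (A : ValuationSubring Qbar)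

theorem exists_residue_inv_eq_zero {a : Qbar} (ha : a ∉ A) :
    ∃ h : a⁻¹ ∈ A, IsLocalRing.residue A ⟨a⁻¹, h⟩ = 0 := by
  have hinv : a⁻¹ ∈ A := (A.mem_or_inv_mem a).resolve_left ha
  refine ⟨hinv, ?_⟩
  rw [IsLocalRing.residue_eq_zero_iff, ValuationSubring.valuation_lt_one_iff]
  have h1 : 1 < A.valuation a := by
    rw [← not_le, ValuationSubring.valuation_le_one_iff]
    exact ha
  show A.valuation a⁻¹ < 1
  rw [map_inv₀]
  exact inv_lt_one_of_one_lt₀ h1

theorem ne_zero_of_not_mem {a : Qbar} (ha : a ∉ A) : a ≠ 0 := by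
  rintro rfl
  exact ha A.zero_mem

end Residue

/-! ### the level-`p` form of the specialisation principle -/

section Spec

variable (p : ℕ) [NeZero p] (A : ValuationSubring Qbar)
variable {r : Place Qbar (modularFunctionFieldBar p) →
  Place (IsLocalRing.ResidueField A) (modularFunctionFieldFullC (IsLocalRing.ResidueField A) p)}

theorem spec_div (hr : IsPlaceReductionModL A p r) {g : FF p} {Y : LaurentSeries A}
    (hY : coeffMap A.subtype Y = (g : LaurentSeries Kbar))
    (hYk : coeffMap (IsLocalRing.residue A) Y ∈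
      modularFunctionFieldFullC (IsLocalRing.ResidueField A) p)
    (hY0 : coeffMap (IsLocalRing.residue A) Y ≠ 0) :
    ∃ D : Divisor Qbar (modularFunctionFieldBar p), (∀ P, D P = P.ord g) ∧
      ∀ Q, Finsupp.mapDomain r D Q =
        Q.ord (⟨_, hYk⟩ : modularFunctionFieldFullC (IsLocalRing.ResidueField A) p) := by
  have hmem : coeffMap A.subtype Y ∈ modularFunctionFieldBar p := by
    rw [hY]
    exact g.2
  have heq : (⟨_, hmem⟩ : modularFunctionFieldBar p) = g := Subtype.ext hY
  obtain ⟨D, hD, hrD⟩ := exists_div_red (FbarFacts20.hasPrincipalDivisors_bar p) hr Y hmem hYk hY0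
  refine ⟨D, fun P => ?_, hrD⟩
  rw [hD P, heq]

theorem spec_pos (hr : IsPlaceReductionModL A p r) {g : FF p} {Y : LaurentSeries A}
    (hY : coeffMap A.subtype Y = (g : LaurentSeries Kbar))
    (hYk : coeffMap (IsLocalRing.residue A) Y ∈
      modularFunctionFieldFullC (IsLocalRing.ResidueField A) p)
    (hY0 : coeffMap (IsLocalRing.residue A) Y ≠ 0)
    (Q : Place (IsLocalRing.ResidueField A)
      (modularFunctionFieldFullC (IsLocalRing.ResidueField A) p))
    (hnp : ∀ P, r P = Q → 0 ≤ P.ord g) {x : Place Qbar (modularFunctionFieldBar p)}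
    (hx : r x = Q) (hx0 : 0 < x.ord g) :
    0 < Q.ord (⟨_, hYk⟩ : modularFunctionFieldFullC (IsLocalRing.ResidueField A) p) := by
  obtain ⟨D, hD, hrD⟩ := spec_div p A hr hY hYk hY0
  rw [← hrD Q]
  refine mapDomain_pos_of_fibre r D Q (fun P hP => ?_) hx ?_
  · rw [hD P]
    exact hnp P hP
  · rw [hD x]
    exact hx0

end Spec

/-! ### the main theorems -/

section Main

variable (p : ℕ) [NeZero p] (A : ValuationSubring Qbar)
variable {r : Place Qbar (modularFunctionFieldBar p) →
  Place (IsLocalRing.ResidueField A) (modularFunctionFieldFullC (IsLocalRing.ResidueField A) p)}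

/-- The reduction `j~` of `j` as an element of the special-fibre function field. -/
def jt : modularFunctionFieldFullC (IsLocalRing.ResidueField A) p :=
  ⟨jqModC (IsLocalRing.ResidueField A), jqModC_mem_full (IsLocalRing.ResidueField A) p⟩

theorem coeffMap_subtype_jq :
    coeffMap A.subtype (jqModC A) = ((jF p : FF p) : LaurentSeries Kbar) := by
  rw [coeffMap_jqModC, coe_jF, jqK_eq_jqModC]

theorem coeffMap_residue_jq :
    coeffMap (IsLocalRing.residue A) (jqModC A) = jqModC (IsLocalRing.ResidueField A) :=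
  coeffMap_jqModC _

/-- The `A`-integral series `1 - b · Y`. -/
theorem coeffMap_subtype_one_sub (b : A) (Y : LaurentSeries A) {g : FF p}
    (hY : coeffMap A.subtype Y = (g : LaurentSeries Kbar)) :
    coeffMap A.subtype (1 - HahnSeries.C b * Y) =
      ((1 - algebraMap Kbar (FF p) (b : Kbar) * g : FF p) : LaurentSeries Kbar) := by
  rw [map_sub, map_one, map_mul, ConstViaR20.coeffMap_C, hY]
  show _ = (1 : LaurentSeries Kbar) - algebraMap Kbar (LaurentSeries Kbar) (b : Kbar) *
    (g : LaurentSeries Kbar)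
  rw [algebraMap_laurentSeries_eq_single, HahnSeries.C_apply]
  rfl

theorem coeffMap_residue_one_sub {b : A} (hb : IsLocalRing.residue A b = 0)
    (Y : LaurentSeries A) :
    coeffMap (IsLocalRing.residue A) (1 - HahnSeries.C b * Y) = 1 := by
  rw [map_sub, map_one, map_mul, ConstViaR20.coeffMap_C, hb, map_zero, zero_mul, sub_zero]

/-- the function `1 - a⁻¹ g` has no pole where `g` has none, and vanishes where `g = a`. -/
theorem ord_one_sub_nonneg {a : Kbar} {g : FF p} (P : Place Kbar (FF p)) (hP : 0 ≤ P.ord g) :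
    0 ≤ P.ord (1 - algebraMap Kbar (FF p) a⁻¹ * g) := by
  rw [← ffp_mem_iff_ord_nonneg] at hP ⊢
  exact sub_mem (one_mem _) (mul_mem (P.algebraMap_mem' _) hP)

theorem ord_one_sub_pos {a : Kbar} (ha : a ≠ 0) {g : FF p} (x : Place Kbar (FF p))
    (hx : 0 < x.ord (g - algebraMap Kbar (FF p) a)) :
    0 < x.ord (1 - algebraMap Kbar (FF p) a⁻¹ * g) := by
  have hne : g - algebraMap Kbar (FF p) a ≠ 0 := by
    intro h0
    rw [h0, Place.ord_zero] at hx
    exact lt_irrefl _ hx
  have hc : algebraMap Kbar (FF p) (-a⁻¹) ≠ 0 := by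
    rw [Ne, map_eq_zero_iff _ (algebraMap Kbar (FF p)).injective]
    exact neg_ne_zero.mpr (inv_ne_zero ha)
  have h2 : algebraMap Kbar (FF p) a⁻¹ * algebraMap Kbar (FF p) a = 1 := by
    rw [← map_mul, inv_mul_cancel₀ ha, map_one]
  have h1 : 1 - algebraMap Kbar (FF p) a⁻¹ * g =
      algebraMap Kbar (FF p) (-a⁻¹) * (g - algebraMap Kbar (FF p) a) := by
    rw [map_neg]
    linear_combination (-1 : FF p) * h2
  rw [h1, x.ord_mul hc hne, ffp_ord_algebraMap, zero_add]
  exact hx

/-- **`red_fibre`.** A place where `j` takes a value `a ∉ A` reduces to one of the two cusps. -/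
theorem red_fibre (hp : p.Prime) (hr : IsPlaceReductionModL A p r) {a : Kbar} (ha : a ∉ A)
    {x : Place Kbar (FF p)} (hx : 0 < x.ord (jF p - algebraMap Kbar (FF p) a)) :
    r x = r (cuspInf p) ∨ r x = r (cuspZero p) := by
  by_contra hcon
  rw [not_or] at hcon
  obtain ⟨hinv, hres⟩ := exists_residue_inv_eq_zero A ha
  have hY := coeffMap_subtype_one_sub p A ⟨a⁻¹, hinv⟩ (jqModC A) (coeffMap_subtype_jq p A)
  have hY1 := coeffMap_residue_one_sub A hres (jqModC A)
  have hYk : coeffMap (IsLocalRing.residue A) (1 - HahnSeries.C (⟨a⁻¹, hinv⟩ : A) * jqModC A) ∈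
      modularFunctionFieldFullC (IsLocalRing.ResidueField A) p := by
    rw [hY1]
    exact one_mem _
  have hY0 : coeffMap (IsLocalRing.residue A) (1 - HahnSeries.C (⟨a⁻¹, hinv⟩ : A) * jqModC A) ≠
      0 := by
    rw [hY1]
    exact one_ne_zero
  have hpos := spec_pos p A hr hY hYk hY0 (r x) (fun P hP => ?_) rfl
    (ord_one_sub_pos p (ne_zero_of_not_mem A ha) x hx)
  · have h1 : (⟨_, hYk⟩ : modularFunctionFieldFullC (IsLocalRing.ResidueField A) p) = 1 :=
      Subtype.ext hY1
    rw [h1, Place.ord_one] at hpos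
    exact lt_irrefl _ hpos
  · refine ord_one_sub_nonneg p P (ord_jF_nonneg_of_ne p hp P ?_ ?_)
    · rintro rfl
      exact hcon.1 hP.symm
    · rintro rfl
      exact hcon.2 hP.symm

/-- No zero of `j` reduces to a cusp (given the orders of `j~` at the two reduced cusps). -/
theorem no_zero_of_j_in_cusp_fibres (hp : p.Prime) (hr : IsPlaceReductionModL A p r)
    (hne : r (cuspInf p) ≠ r (cuspZero p))
    (hjI : (r (cuspInf p)).ord (jt p A) = -1)
    (hjZ : (r (cuspZero p)).ord (jt p A) = -(p : ℤ))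
    (P : Place Kbar (FF p)) (hP : 0 < P.ord (jF p)) :
    r P ≠ r (cuspInf p) ∧ r P ≠ r (cuspZero p) := by
  classical
  have hYk : coeffMap (IsLocalRing.residue A) (jqModC A) ∈
      modularFunctionFieldFullC (IsLocalRing.ResidueField A) p := by
    rw [coeffMap_residue_jq]
    exact jqModC_mem_full _ p
  have hY0 : coeffMap (IsLocalRing.residue A) (jqModC A) ≠ 0 := by
    rw [coeffMap_residue_jq]
    exact jqModC_ne_zero_of_nontrivial _
  obtain ⟨D, hD, hrD⟩ := spec_div p A hr (coeffMap_subtype_jq p A) hYk hY0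
  have hjt : (⟨_, hYk⟩ : modularFunctionFieldFullC (IsLocalRing.ResidueField A) p) = jt p A :=
    Subtype.ext (coeffMap_residue_jq A)
  have hcne : cuspInf p ≠ cuspZero p := cuspInf_ne_cuspZero p hp
  -- the effective part
  set D' : Divisor Kbar (FF p) :=
    D - Finsupp.single (cuspInf p) (D (cuspInf p)) - Finsupp.single (cuspZero p) (D (cuspZero p))
    with hD'
  have hDdec : D = D' + Finsupp.single (cuspInf p) (D (cuspInf p)) +
      Finsupp.single (cuspZero p) (D (cuspZero p)) := by
    rw [hD']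
    abel
  have hD'inf : D' (cuspInf p) = 0 := by
    rw [hD', Finsupp.sub_apply, Finsupp.sub_apply, Finsupp.single_eq_same,
      Finsupp.single_eq_of_ne hcne, sub_self, sub_zero]
  have hD'zero : D' (cuspZero p) = 0 := by
    rw [hD', Finsupp.sub_apply, Finsupp.sub_apply, Finsupp.single_eq_same,
      Finsupp.single_eq_of_ne hcne.symm, sub_zero, sub_self]
  have hD'of : ∀ P' : Place Kbar (FF p), P' ≠ cuspInf p → P' ≠ cuspZero p → D' P' = D P' := by
    intro P' h1 h2
    rw [hD', Finsupp.sub_apply, Finsupp.sub_apply, Finsupp.single_eq_of_ne h1,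
      Finsupp.single_eq_of_ne h2, sub_zero, sub_zero]
  have hD'nn : ∀ P' : Place Kbar (FF p), 0 ≤ D' P' := by
    intro P'
    by_cases h1 : P' = cuspInf p
    · rw [h1, hD'inf]
    by_cases h2 : P' = cuspZero p
    · rw [h2, hD'zero]
    rw [hD'of P' h1 h2, hD P']
    exact ord_jF_nonneg_of_ne p hp P' h1 h2
  -- push-forward
  have hpush : ∀ Q, Finsupp.mapDomain r D Q = Finsupp.mapDomain r D' Q +
      (Finsupp.single (r (cuspInf p)) (D (cuspInf p))) Q +
      (Finsupp.single (r (cuspZero p)) (D (cuspZero p))) Q := by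
    intro Q
    conv_lhs => rw [hDdec]
    rw [Finsupp.mapDomain_add, Finsupp.mapDomain_add, Finsupp.mapDomain_single,
      Finsupp.mapDomain_single, Finsupp.add_apply, Finsupp.add_apply]
  have hPne1 : P ≠ cuspInf p := by
    rintro rfl
    rw [ord_cuspInf_jF] at hP
    omega
  have hPne2 : P ≠ cuspZero p := by
    rintro rfl
    rw [ord_cuspZero_jF] at hP
    have : (0 : ℤ) ≤ p := Int.natCast_nonneg p
    omega
  have hD'P : 0 < D' P := by
    rw [hD'of P hPne1 hPne2, hD P]
    exact hP
  constructor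
  · intro hPQ
    have h1 := hpush (r (cuspInf p))
    rw [hrD, hjt, hjI, Finsupp.single_eq_same, Finsupp.single_eq_of_ne hne, hD (cuspInf p),
      ord_cuspInf_jF] at h1
    have h2 : Finsupp.mapDomain r D' (r (cuspInf p)) = 0 := by linarith
    have h3 := eq_zero_of_mapDomain_eq_zero r D' _ (fun P' _ => hD'nn P') h2 hPQ
    omega
  · intro hPQ
    have h1 := hpush (r (cuspZero p))
    rw [hrD, hjt, hjZ, Finsupp.single_eq_same, Finsupp.single_eq_of_ne hne.symm,
      hD (cuspZero p), ord_cuspZero_jF] at h1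
    have h2 : Finsupp.mapDomain r D' (r (cuspZero p)) = 0 := by linarith
    have h3 := eq_zero_of_mapDomain_eq_zero r D' _ (fun P' _ => hD'nn P') h2 hPQ
    omega

/-! ### `red_eq_inf_iff` -/

local notation "kA" => IsLocalRing.ResidueField A
local notation "Ft" => modularFunctionFieldFullC (IsLocalRing.ResidueField A) p

theorem coeffMap_subtype_sub_C (cA : A) (F : LaurentSeries A) {f : FF p}
    (hF : coeffMap A.subtype F = (f : LaurentSeries Kbar)) :
    coeffMap A.subtype (F - HahnSeries.C cA) =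
      ((f - algebraMap Kbar (FF p) (cA : Kbar) : FF p) : LaurentSeries Kbar) := by
  rw [map_sub, ConstViaR20.coeffMap_C, hF]
  show _ = (f : LaurentSeries Kbar) - algebraMap Kbar (LaurentSeries Kbar) (cA : Kbar)
  rw [algebraMap_laurentSeries_eq_single, HahnSeries.C_apply]
  rfl

theorem ord_sub_const_nonneg {f : FF p} (P : Place Kbar (FF p)) (c' : Kbar) (h : 0 ≤ P.ord f) :
    0 ≤ P.ord (f - algebraMap Kbar (FF p) c') := by
  rw [← ffp_mem_iff_ord_nonneg] at h ⊢
  exact sub_mem h (P.algebraMap_mem' _)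

/-- constants of the special fibre -/
def constT (c : kA) : Ft := algebraMap kA Ft c

theorem coe_constT (c : kA) : ((constT p A c : Ft) : LaurentSeries kA) = HahnSeries.C c :=
  coe_algebraMap_fullC c

theorem constT_ne_zero {c : kA} (hc : c ≠ 0) : constT p A c ≠ 0 := by
  rw [constT, Ne, map_eq_zero_iff _ (algebraMap kA Ft).injective]
  exact hc

theorem ord_constT (Q : Place kA Ft) (c : kA) : Q.ord (constT p A c) = 0 :=
  ffp_ord_algebraMap Q c

/-- The specialisation principle for `f - c`, `c ∈ A`. -/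
theorem ord_red_sub_const_pos (hr : IsPlaceReductionModL A p r)
    {f : FF p} {F : LaurentSeries A} (hF : coeffMap A.subtype F = (f : LaurentSeries Kbar))
    {ft : Ft} (hft : coeffMap (IsLocalRing.residue A) F = (ft : LaurentSeries kA))
    {c : Kbar} (hc : c ∈ A) {x : Place Kbar (FF p)}
    (hxc : 0 < x.ord (f - algebraMap Kbar (FF p) c))
    (Q : Place kA Ft) (hxQ : r x = Q) (hnp : ∀ P, r P = Q → 0 ≤ P.ord f)
    (hne0 : ft - constT p A (IsLocalRing.residue A ⟨c, hc⟩) ≠ 0) :
    0 < Q.ord (ft - constT p A (IsLocalRing.residue A ⟨c, hc⟩)) := by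
  have hY := coeffMap_subtype_sub_C p A ⟨c, hc⟩ F hF
  obtain ⟨g, hg⟩ : ∃ g : Ft, g = ft - constT p A (IsLocalRing.residue A ⟨c, hc⟩) := ⟨_, rfl⟩
  rw [← hg] at hne0 ⊢
  have hYv : coeffMap (IsLocalRing.residue A) (F - HahnSeries.C (⟨c, hc⟩ : A)) =
      (g : LaurentSeries kA) := by
    rw [map_sub, ConstViaR20.coeffMap_C, hft, hg]
    show _ = (ft : LaurentSeries kA) -
      ((constT p A (IsLocalRing.residue A ⟨c, hc⟩) : Ft) : LaurentSeries kA)
    rw [coe_constT]
  have hYk : coeffMap (IsLocalRing.residue A) (F - HahnSeries.C (⟨c, hc⟩ : A)) ∈ Ft := by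
    rw [hYv]
    exact g.2
  have hY0 : coeffMap (IsLocalRing.residue A) (F - HahnSeries.C (⟨c, hc⟩ : A)) ≠ 0 := by
    rw [hYv]
    intro h0
    exact hne0 (Subtype.ext h0)
  have hpos := spec_pos p A hr hY hYk hY0 Q
    (fun P hP => ord_sub_const_nonneg p P c (hnp P hP)) hxQ hxc
  have heq : (⟨_, hYk⟩ : Ft) = g := Subtype.ext hYv
  rwa [heq] at hpos

/-- **(D3'), first half.** If `x` reduces to `Q∞ = r (cuspInf p)` then the value `c = f(x)` is integral
and congruent to `1 = f~(Q∞)`. -/
theorem residue_eq_one_of_red_eq_inf (hp : p.Prime) (hr : IsPlaceReductionModL A p r)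
    (hne : r (cuspInf p) ≠ r (cuspZero p))
    (hjI : (r (cuspInf p)).ord (jt p A) = -1)
    (hjZ : (r (cuspZero p)).ord (jt p A) = -(p : ℤ))
    {f : FF p} {F : LaurentSeries A} (hF : coeffMap A.subtype F = (f : LaurentSeries Kbar))
    {ft : Ft} (hft : coeffMap (IsLocalRing.residue A) F = (ft : LaurentSeries kA))
    (hfpole : ∀ P : Place Kbar (FF p), P.ord f < 0 → 0 < P.ord (jF p))
    (hfI : 0 < (r (cuspInf p)).ord (ft - 1))
    {x : Place Kbar (FF p)} {c : Kbar} (hxc : 0 < x.ord (f - algebraMap Kbar (FF p) c))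
    (hxI : r x = r (cuspInf p)) :
    ∃ hc : c ∈ A, IsLocalRing.residue A ⟨c, hc⟩ = 1 := by
  have hnz := no_zero_of_j_in_cusp_fibres p A hp hr hne hjI hjZ
  have hnpI : ∀ P, r P = r (cuspInf p) → 0 ≤ P.ord f := by
    intro P hP
    by_contra h
    exact (hnz P (hfpole P (not_le.mp h))).1 hP
  -- `c ∈ A`
  have hcA : c ∈ A := by
    by_contra hcn
    obtain ⟨hinv, hres⟩ := exists_residue_inv_eq_zero A hcn
    have hY := coeffMap_subtype_one_sub p A ⟨c⁻¹, hinv⟩ F hF
    have hY1 := coeffMap_residue_one_sub A hres F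
    have hYk : coeffMap (IsLocalRing.residue A) (1 - HahnSeries.C (⟨c⁻¹, hinv⟩ : A) * F) ∈ Ft := by
      rw [hY1]
      exact one_mem _
    have hY0 : coeffMap (IsLocalRing.residue A) (1 - HahnSeries.C (⟨c⁻¹, hinv⟩ : A) * F) ≠ 0 := by
      rw [hY1]
      exact one_ne_zero
    have hpos := spec_pos p A hr hY hYk hY0 (r (cuspInf p))
      (fun P hP => ord_one_sub_nonneg p P (hnpI P hP)) hxI
      (ord_one_sub_pos p (ne_zero_of_not_mem A hcn) x hxc)
    have h1 : (⟨_, hYk⟩ : Ft) = 1 := Subtype.ext hY1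
    rw [h1, Place.ord_one] at hpos
    exact lt_irrefl _ hpos
  refine ⟨hcA, ?_⟩
  by_contra hres
  obtain ⟨cr, hcr⟩ : ∃ cr : kA, cr = IsLocalRing.residue A ⟨c, hcA⟩ := ⟨_, rfl⟩
  rw [← hcr] at hres
  have hconst : constT p A (1 - cr) ≠ 0 := constT_ne_zero p A (sub_ne_zero.mpr (Ne.symm hres))
  have hdecomp : ft - constT p A cr = constT p A (1 - cr) + (ft - 1) := by
    rw [constT, constT, map_sub, map_one]
    abel
  have hord : (r (cuspInf p)).ord (ft - constT p A cr) = 0 := by
    rw [hdecomp, ffp_ord_add_eq_of_lt _ hconst (by rw [ord_constT]; exact hfI), ord_constT]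
  have hne0 : ft - constT p A cr ≠ 0 := by
    intro h0
    have h1 : ft - 1 = constT p A (cr - 1) := by
      rw [sub_eq_zero.mp h0, constT, constT, map_sub, map_one]
    rw [h1, ord_constT] at hfI
    exact lt_irrefl _ hfI
  rw [hcr] at hne0 hord
  have hpos := ord_red_sub_const_pos p A hr hF hft hcA hxc _ hxI hnpI hne0
  rw [hord] at hpos
  exact lt_irrefl _ hpos

/-- **(D3') = `red_eq_inf_iff`, general form.**  `f ∈ FF p` with an `A`-integral expansion `F` (reduction
`f~ = ft ∈ F~`), poles only at zeros of `j`, `f~ ≡ 1` at `Q∞ = r (cuspInf p)`, `f~` vanishing at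
`Q0 = r (cuspZero p)`.  For a place `x` with `j(x) = a ∉ A` and `c = f(x)`:
`r x = Q∞ ↔ v_A(c) = 1` (otherwise `r x = Q0`, by `red_fibre`). -/
theorem red_eq_inf_iff (hp : p.Prime) (hr : IsPlaceReductionModL A p r)
    (hne : r (cuspInf p) ≠ r (cuspZero p))
    (hjI : (r (cuspInf p)).ord (jt p A) = -1)
    (hjZ : (r (cuspZero p)).ord (jt p A) = -(p : ℤ))
    {f : FF p} {F : LaurentSeries A} (hF : coeffMap A.subtype F = (f : LaurentSeries Kbar))
    {ft : Ft} (hft : coeffMap (IsLocalRing.residue A) F = (ft : LaurentSeries kA))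
    (hfpole : ∀ P : Place Kbar (FF p), P.ord f < 0 → 0 < P.ord (jF p))
    (hfI : 0 < (r (cuspInf p)).ord (ft - 1))
    (hfZ : 0 < (r (cuspZero p)).ord ft)
    {a : Kbar} (ha : a ∉ A) {x : Place Kbar (FF p)}
    (hxa : 0 < x.ord (jF p - algebraMap Kbar (FF p) a))
    {c : Kbar} (hxc : 0 < x.ord (f - algebraMap Kbar (FF p) c)) :
    r x = r (cuspInf p) ↔ A.valuation c = 1 := by
  constructor
  · intro hxI
    obtain ⟨hcA, hres1⟩ :=
      residue_eq_one_of_red_eq_inf p A hp hr hne hjI hjZ hF hft hfpole hfI hxc hxI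
    have hunit : IsUnit (⟨c, hcA⟩ : A) :=
      (IsLocalRing.residue_ne_zero_iff_isUnit _).mp (by rw [hres1]; exact one_ne_zero)
    exact (A.valuation_eq_one_iff ⟨c, hcA⟩).mp hunit
  · intro hv
    have hcA : c ∈ A := (A.valuation_le_one_iff c).mp hv.le
    have hunit : IsUnit (⟨c, hcA⟩ : A) := (A.valuation_eq_one_iff ⟨c, hcA⟩).mpr hv
    have hres : IsLocalRing.residue A ⟨c, hcA⟩ ≠ 0 :=
      (IsLocalRing.residue_ne_zero_iff_isUnit _).mpr hunit
    rcases red_fibre p A hp hr ha hxa with h | h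
    · exact h
    exfalso
    have hnz := no_zero_of_j_in_cusp_fibres p A hp hr hne hjI hjZ
    have hnpZ : ∀ P, r P = r (cuspZero p) → 0 ≤ P.ord f := by
      intro P hP
      by_contra h'
      exact (hnz P (hfpole P (not_le.mp h'))).2 hP
    obtain ⟨cr, hcr⟩ : ∃ cr : kA, cr = IsLocalRing.residue A ⟨c, hcA⟩ := ⟨_, rfl⟩
    rw [← hcr] at hres
    have hconst : constT p A (-cr) ≠ 0 := constT_ne_zero p A (neg_ne_zero.mpr hres)
    have hdecomp : ft - constT p A cr = constT p A (-cr) + ft := by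
      rw [constT, constT, map_neg]
      abel
    have hord : (r (cuspZero p)).ord (ft - constT p A cr) = 0 := by
      rw [hdecomp, ffp_ord_add_eq_of_lt _ hconst (by rw [ord_constT]; exact hfZ), ord_constT]
    have hne0 : ft - constT p A cr ≠ 0 := by
      intro h0
      rw [sub_eq_zero.mp h0, ord_constT] at hfZ
      exact lt_irrefl _ hfZ
    rw [hcr] at hne0 hord
    have hpos := ord_red_sub_const_pos p A hr hF hft hcA hxc _ h hnpZ hne0
    rw [hord] at hpos
    exact lt_irrefl _ hpos

end Main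

end Fermat.Agent.MAZ.RedInf24
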